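/-
Programme T1A (S19), brick G5a COH (helper60), part (e), file 1: the LOCAL FREENESS LEMMA.

`S` noetherian local, `x ∈ 𝔪_S`, `M` a finitely generated `S`-module on which `x` is regular, and
`M/xM` free over `S/x`  ⟹  `M` free over `S`.
(Lift a basis; Nakayama gives surjectivity; the kernel `K` satisfies `K ⊆ x K` by regularity, so
`K = 0` by Nakayama again.)
-/
import Mathlib

set_option autoImplicit false
set_option linter.unusedSectionVars false
set_option linter.style.haveILetI false

namespace Fermat.Agent.T1.Coh60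

open Module

/-- Element-wise form: a finite family `e` in `M` which generates `M` modulo `x` and is linearly
independent modulo `x` is a basis of `M`, when `x ∈ rad S` is `M`-regular and `S` is noetherian. -/
theorem basis_of_regular_of_mod {S : Type*} [CommRing S] [IsNoetherianRing S]
    {M : Type*} [AddCommGroup M] [Module S M] [Module.Finite S M]
    (x : S) (hx : x ∈ (⊥ : Ideal S).jacobson) (hreg : IsSMulRegular M x)
    {ι : Type*} [Fintype ι] (e : ι → M)
    (hspan : ∀ m : M, ∃ (g : ι → S) (m' : M), m = ∑ i, g i • e i + x • m')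
    (hind : ∀ (g : ι → S) (m' : M), ∑ i, g i • e i = x • m' → ∀ i, ∃ a, g i = x * a) :
    ∃ b : Basis ι S M, ∀ i, b i = e i := by
  classical
  have hI : Ideal.span {x} ≤ (⊥ : Ideal S).jacobson := by
    rw [Ideal.span_le, Set.singleton_subset_iff]
    exact hx
  -- spanning
  have hsp : ⊤ ≤ Submodule.span S (Set.range e) := by
    refine Submodule.le_of_le_smul_of_le_jacobson_bot (I := Ideal.span {x})
      (Module.finite_def.1 inferInstance) hI ?_
    intro m _
    obtain ⟨g, m', rfl⟩ := hspan m
    refine Submodule.add_mem_sup ?_ ?_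
    · exact Submodule.sum_mem _ fun i _ =>
        Submodule.smul_mem _ _ (Submodule.subset_span ⟨i, rfl⟩)
    · exact Submodule.smul_mem_smul (Ideal.mem_span_singleton_self x) Submodule.mem_top
  -- linear independence
  let φ : (ι → S) →ₗ[S] M := Fintype.linearCombination S e
  have hφ : ∀ g : ι → S, φ g = ∑ i, g i • e i := fun g => Fintype.linearCombination_apply S e g
  have hker : LinearMap.ker φ = ⊥ := by
    refine Submodule.eq_bot_of_le_smul_of_le_jacobson_bot (Ideal.span {x}) _
      (IsNoetherian.noetherian _) ?_ hI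
    intro g hg
    rw [LinearMap.mem_ker, hφ] at hg
    have h0 : ∑ i, g i • e i = x • (0 : M) := by rw [hg, smul_zero]
    choose a ha using hind g 0 h0
    have hga : g = x • a := by
      funext i
      rw [Pi.smul_apply, smul_eq_mul, ha i]
    have hφa : φ a = 0 := by
      apply hreg
      show x • φ a = x • 0
      rw [smul_zero, ← map_smul, ← hga, hφ, hg]
    rw [hga]
    exact Submodule.smul_mem_smul (Ideal.mem_span_singleton_self x) hφa
  have hli : LinearIndependent S e := by
    rw [Fintype.linearIndependent_iff]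
    intro g hg i
    have : g ∈ LinearMap.ker φ := by rw [LinearMap.mem_ker, hφ, hg]
    rw [hker, Submodule.mem_bot] at this
    rw [this]
    rfl
  exact ⟨Basis.mk hli hsp, fun i => Basis.mk_apply hli hsp i⟩

/-- Lifting a basis of `M/xM` over `S/x`: a finite family in `M` generating modulo `x` and
independent modulo `x`. -/
theorem exists_family_of_free_quotient {S : Type*} [CommRing S]
    {M : Type*} [AddCommGroup M] [Module S M] [Module.Finite S M] (x : S)
    [Module.Free (S ⧸ Ideal.span {x}) (M ⧸ (Ideal.span {x} • ⊤ : Submodule S M))] :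
    ∃ (n : ℕ) (e : Fin n → M),
      (∀ m : M, ∃ (g : Fin n → S) (m' : M), m = ∑ i, g i • e i + x • m') ∧
      (∀ (g : Fin n → S) (m' : M), ∑ i, g i • e i = x • m' → ∀ i, ∃ a, g i = x * a) := by
  classical
  set I : Ideal S := Ideal.span {x} with hIdef
  haveI : Module.Finite (S ⧸ I) (M ⧸ (I • ⊤ : Submodule S M)) :=
    Module.Finite.of_restrictScalars_finite S _ _
  let b0 := Module.Free.chooseBasis (S ⧸ I) (M ⧸ (I • ⊤ : Submodule S M))
  haveI : Fintype (Module.Free.ChooseBasisIndex (S ⧸ I) (M ⧸ (I • ⊤ : Submodule S M))) :=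
    Module.Free.ChooseBasisIndex.fintype _ _
  let b := b0.reindex (Fintype.equivFin _)
  set n := Fintype.card (Module.Free.ChooseBasisIndex (S ⧸ I) (M ⧸ (I • ⊤ : Submodule S M)))
  have hmem : ∀ m : M, m ∈ (I • ⊤ : Submodule S M) ↔ ∃ m', m = x • m' := by
    intro m
    rw [hIdef, Submodule.ideal_span_singleton_smul, Submodule.mem_smul_pointwise_iff_exists]
    constructor
    · rintro ⟨m', -, rfl⟩
      exact ⟨m', rfl⟩
    · rintro ⟨m', rfl⟩
      exact ⟨m', Submodule.mem_top, rfl⟩
  choose e he using fun i : Fin n =>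
    Submodule.Quotient.mk_surjective (I • ⊤ : Submodule S M) (b i)
  have hmk : ∀ g : Fin n → S,
      Submodule.Quotient.mk (p := (I • ⊤ : Submodule S M)) (∑ i, g i • e i) =
      ∑ i, (Ideal.Quotient.mk I (g i)) • b i := by
    intro g
    show (Submodule.mkQ (I • ⊤ : Submodule S M)) (∑ i, g i • e i) = _
    rw [map_sum (Submodule.mkQ (I • ⊤ : Submodule S M))]
    refine Finset.sum_congr rfl fun i _ => ?_
    rw [Submodule.mkQ_apply, Submodule.Quotient.mk_smul, he i]
    rfl
  refine ⟨n, e, ?_, ?_⟩
  · intro m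
    have h1 := b.sum_repr (Submodule.Quotient.mk (p := (I • ⊤ : Submodule S M)) m)
    choose g hg using fun i : Fin n =>
      Ideal.Quotient.mk_surjective (b.repr (Submodule.Quotient.mk m) i)
    have h2 : Submodule.Quotient.mk (p := (I • ⊤ : Submodule S M)) (m - ∑ i, g i • e i) = 0 := by
      rw [Submodule.Quotient.mk_sub, hmk, sub_eq_zero, ← h1]
      exact Finset.sum_congr rfl fun i _ => by rw [hg i]
    rw [Submodule.Quotient.mk_eq_zero, hmem] at h2
    obtain ⟨m', hm'⟩ := h2
    exact ⟨g, m', by rw [← hm']; abel⟩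
  · intro g m' hgm i
    have h1 : ∑ i, (Ideal.Quotient.mk I (g i)) • b i = 0 := by
      rw [← hmk, hgm, Submodule.Quotient.mk_eq_zero, hmem]
      exact ⟨m', rfl⟩
    have h2 := Fintype.linearIndependent_iff.1 b.linearIndependent _ h1 i
    rw [Ideal.Quotient.eq_zero_iff_mem, hIdef, Ideal.mem_span_singleton'] at h2
    obtain ⟨a, ha⟩ := h2
    exact ⟨a, by rw [← ha, mul_comm]⟩

/-- **Local freeness lemma.** `S` noetherian local, `x ∈ 𝔪_S` regular on the finitely generated
module `M`, `M/xM` free over `S/x` ⟹ `M` free over `S`. -/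
theorem free_of_regular_of_free_quotient {S : Type*} [CommRing S] [IsLocalRing S]
    [IsNoetherianRing S] {M : Type*} [AddCommGroup M] [Module S M] [Module.Finite S M]
    (x : S) (hx : x ∈ IsLocalRing.maximalIdeal S) (hreg : IsSMulRegular M x)
    [Module.Free (S ⧸ Ideal.span {x}) (M ⧸ (Ideal.span {x} • ⊤ : Submodule S M))] :
    Module.Free S M := by
  obtain ⟨n, e, hspan, hind⟩ := exists_family_of_free_quotient (M := M) x
  have hjac : x ∈ (⊥ : Ideal S).jacobson := by
    rw [IsLocalRing.jacobson_eq_maximalIdeal ⊥ bot_ne_top]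
    exact hx
  obtain ⟨B, -⟩ := basis_of_regular_of_mod x hjac hreg e hspan hind
  exact Module.Free.of_basis B

end Fermat.Agent.T1.Coh60
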