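/-
Programme T1A (S19), brick G5a COH (helper60), part (e), file 2: PROJECTIVITY OVER `R[X]`.

`R` a DVR with uniformiser `π`, `M` a finitely generated torsion-free `R[X]`-module such that
`M/πM` is torsion-free over `(R/π)[X]` (element-wise: `p • m ∈ πM → π ∣ p ∨ m ∈ πM`).
Then `M` is projective over `R[X]`.

Proof: `M/πM` is free over the PID `(R/π)[X]`; lift a basis to `φ : R[X]^n → M`; `φ` is injective
(`ker φ ⊆ π ker φ`, Krull), and its cokernel is killed by some `f ≡ 1 mod π` (Nakayama), so
`M[1/f]` is free; `M[1/π]` is finitely generated torsion-free over the PID `R[1/π][X] = K[X]`,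
hence free; `(f, π) = 1`, flatness is local, and finitely presented flat modules are projective.
-/
import Mathlib
import Fermat.Agent.T1.Coh60.LocalFree

set_option autoImplicit false
set_option linter.unusedSectionVars false
set_option linter.style.haveILetI false

open Polynomial Module

namespace Fermat.Agent.T1.Coh60

/-- From a localisation at a big submonoid `N` to a localisation at a smaller one `M ≤ N` each of
whose elements divides an element of `M`. -/
theorem isLocalization_of_le_of_dvd {R S : Type*} [CommRing R] [CommRing S] [Algebra R S]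
    (M N : Submonoid R) [IsLocalization N S] (hMN : M ≤ N)
    (h : ∀ n ∈ N, ∃ m ∈ M, n ∣ m) : IsLocalization M S where
  map_units y := IsLocalization.map_units S (⟨y.1, hMN y.2⟩ : N)
  surj z := by
    obtain ⟨⟨x, n⟩, hx⟩ := IsLocalization.surj N z
    obtain ⟨m, hm, n', rfl⟩ := h n.1 n.2
    refine ⟨(x * n', ⟨_, hm⟩), ?_⟩
    simp only
    rw [map_mul, map_mul, ← mul_assoc, hx]
  exists_of_eq {x y} hxy := by
    obtain ⟨c, hc⟩ := IsLocalization.exists_of_eq (M := N) (S := S) hxy
    obtain ⟨m, hm, c', hc'⟩ := h c.1 c.2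
    refine ⟨⟨m, hm⟩, ?_⟩
    simp only
    rw [hc', mul_comm (c : R) c', mul_assoc, mul_assoc, hc]

/-- The fraction field of a DVR is obtained by inverting a uniformiser. -/
theorem isLocalization_away_of_irreducible {R : Type*} [CommRing R] [IsDomain R]
    [IsDiscreteValuationRing R] {π : R} (hπ : Irreducible π) (K : Type*) [CommRing K]
    [Algebra R K] [IsFractionRing R K] : IsLocalization.Away π K := by
  refine isLocalization_of_le_of_dvd (Submonoid.powers π) (nonZeroDivisors R)
    (powers_le_nonZeroDivisors_of_noZeroDivisors hπ.ne_zero) ?_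
  intro n hn
  obtain ⟨k, u, hu⟩ := IsDiscreteValuationRing.eq_unit_mul_pow_irreducible
    (nonZeroDivisors.ne_zero hn) hπ
  refine ⟨π ^ k, ⟨k, rfl⟩, ((u⁻¹ : Rˣ) : R), ?_⟩
  rw [hu, mul_comm ((u : R)) (π ^ k), mul_assoc, Units.mul_inv, mul_one]

/-- A localisation of a torsion-free module which is a module over a principal ideal domain
localisation of the base is flat over the base. -/
theorem flat_of_isLocalizedModule_of_isPrincipalIdealRing {A B M N : Type*} [CommRing A]
    [IsDomain A] [CommRing B] [IsDomain B] [IsPrincipalIdealRing B] [Algebra A B]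
    [AddCommGroup M] [Module A M] [Module.IsTorsionFree A M]
    [hN : AddCommGroup N] [Module A N] [Module B N] [IsScalarTower A B N]
    (S : Submonoid A) [IsLocalization S B] (g : M →ₗ[A] N) [IsLocalizedModule S g] :
    Module.Flat A N := by
  haveI : Module.IsTorsionFree B N := IsLocalizedModule.isTorsionFree g S
  haveI : Module.Flat B N := inferInstance
  haveI : Module.Flat A B := IsLocalization.flat B S
  exact Module.Flat.trans A B N

section Main

variable {R : Type*} [CommRing R] [IsDomain R] [IsDiscreteValuationRing R] {π : R}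
  (hπ : Irreducible π) {M : Type*} [AddCommGroup M] [Module R[X] M] [Module.Finite R[X] M]
  [Module.IsTorsionFree R[X] M]

include hπ

theorem C_irreducible_ne_zero : (C π : R[X]) ≠ 0 := by
  rw [Ne, C_eq_zero]
  exact hπ.ne_zero

theorem span_C_ne_top : Ideal.span {(C π : R[X])} ≠ ⊤ := by
  rw [Ne, Ideal.span_singleton_eq_top]
  intro h
  exact hπ.not_isUnit (Polynomial.isUnit_C.1 h)

/-- `R[X]/π` is a principal ideal domain. -/
theorem quotient_C_isDomain_isPrincipalIdealRing :
    IsDomain (R[X] ⧸ Ideal.span {(C π : R[X])}) ∧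
      IsPrincipalIdealRing (R[X] ⧸ Ideal.span {(C π : R[X])}) := by
  have hJ : (Ideal.span {π} : Ideal R).IsMaximal := by
    rw [← hπ.maximalIdeal_eq]
    exact IsLocalRing.maximalIdeal.isMaximal R
  letI : Field (R ⧸ (Ideal.span {π} : Ideal R)) := Ideal.Quotient.field _
  have hI : (Ideal.span {π} : Ideal R).map (C : R →+* R[X]) = Ideal.span {(C π : R[X])} := by
    rw [Ideal.map_span, Set.image_singleton]
  let e : (R ⧸ (Ideal.span {π} : Ideal R))[X] ≃+* R[X] ⧸ Ideal.span {(C π : R[X])} :=
    (Ideal.polynomialQuotientEquivQuotientPolynomial (Ideal.span {π})).trans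
      (Ideal.quotEquivOfEq hI)
  exact ⟨e.symm.toMulEquiv.isDomain _,
    IsPrincipalIdealRing.of_surjective e.toRingHom e.surjective⟩

variable (hmod : ∀ (p : R[X]) (m : M), (∃ m' : M, p • m = (C π : R[X]) • m') →
  (C π ∣ p) ∨ ∃ m' : M, m = (C π : R[X]) • m')

include hmod

/-- `M/πM` is free over `R[X]/π`. -/
theorem free_quotient :
    Module.Free (R[X] ⧸ Ideal.span {(C π : R[X])})
      (M ⧸ (Ideal.span {(C π : R[X])} • ⊤ : Submodule R[X] M)) := by
  obtain ⟨hdom, hpid⟩ := quotient_C_isDomain_isPrincipalIdealRing hπ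
  set I : Ideal R[X] := Ideal.span {(C π : R[X])} with hIdef
  haveI : Module.Finite (R[X] ⧸ I) (M ⧸ (I • ⊤ : Submodule R[X] M)) :=
    Module.Finite.of_restrictScalars_finite R[X] _ _
  have hmem : ∀ m : M, m ∈ (I • ⊤ : Submodule R[X] M) ↔ ∃ m', m = (C π : R[X]) • m' := by
    intro m
    rw [hIdef, Submodule.ideal_span_singleton_smul, Submodule.mem_smul_pointwise_iff_exists]
    constructor
    · rintro ⟨m', -, rfl⟩
      exact ⟨m', rfl⟩
    · rintro ⟨m', rfl⟩
      exact ⟨m', Submodule.mem_top, rfl⟩
  haveI : Module.IsTorsionFree (R[X] ⧸ I) (M ⧸ (I • ⊤ : Submodule R[X] M)) := by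
    rw [Module.isTorsionFree_iff_smul_eq_zero]
    intro r q hrq
    obtain ⟨p, rfl⟩ := Ideal.Quotient.mk_surjective r
    obtain ⟨m, rfl⟩ := Submodule.Quotient.mk_surjective _ q
    have h1 : Submodule.Quotient.mk (p := (I • ⊤ : Submodule R[X] M)) (p • m) = 0 := hrq
    rw [Submodule.Quotient.mk_eq_zero, hmem] at h1
    rcases hmod p m h1 with h | h
    · left
      rw [Ideal.Quotient.eq_zero_iff_mem, hIdef, Ideal.mem_span_singleton]
      exact h
    · right
      rw [Submodule.Quotient.mk_eq_zero, hmem]
      exact h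
  infer_instance

/-- **Projectivity over `R[X]`.** -/
theorem projective_of_torsionFree_mod : Module.Projective R[X] M := by
  classical
  set ϖ : R[X] := C π with hϖ
  set I : Ideal R[X] := Ideal.span {ϖ} with hIdef
  have hϖ0 : ϖ ≠ 0 := C_irreducible_ne_zero hπ
  have hreg : IsSMulRegular M ϖ :=
    (isRegular_iff_ne_zero.2 hϖ0).isSMulRegular
  haveI := free_quotient hπ hmod
  obtain ⟨n, e, hspan, hind⟩ := exists_family_of_free_quotient (M := M) ϖ
  let φ : (Fin n → R[X]) →ₗ[R[X]] M := Fintype.linearCombination R[X] e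
  have hφ : ∀ g : Fin n → R[X], φ g = ∑ i, g i • e i :=
    fun g => Fintype.linearCombination_apply R[X] e g
  -- injectivity of `φ`
  have hkerle : LinearMap.ker φ ≤ I • LinearMap.ker φ := by
    intro g hg
    rw [LinearMap.mem_ker, hφ] at hg
    have h0 : ∑ i, g i • e i = ϖ • (0 : M) := by rw [hg, smul_zero]
    choose a ha using hind g 0 h0
    have hga : g = ϖ • a := by
      funext i
      rw [Pi.smul_apply, smul_eq_mul, ha i]
    have hφa : φ a = 0 := by
      apply hreg
      show ϖ • φ a = ϖ • 0
      rw [smul_zero, ← map_smul, ← hga, hφ, hg]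
    rw [hga]
    exact Submodule.smul_mem_smul (Ideal.mem_span_singleton_self ϖ) hφa
  have hkerpow : ∀ k : ℕ, LinearMap.ker φ ≤ (I ^ k • ⊤ : Submodule R[X] (Fin n → R[X])) := by
    intro k
    induction k with
    | zero =>
      rw [pow_zero, Ideal.one_eq_top, Submodule.top_smul]
      exact le_top
    | succ k ih =>
      calc LinearMap.ker φ ≤ I • LinearMap.ker φ := hkerle
        _ ≤ I • (I ^ k • ⊤ : Submodule R[X] (Fin n → R[X])) := smul_mono_right I ih
        _ = (I ^ (k + 1) • ⊤ : Submodule R[X] (Fin n → R[X])) := by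
          rw [← Submodule.mul_smul, ← pow_succ']
  have hker : LinearMap.ker φ = ⊥ := by
    rw [eq_bot_iff, ← Ideal.iInf_pow_smul_eq_bot_of_isTorsionFree I (span_C_ne_top hπ)
      (M := Fin n → R[X])]
    exact le_iInf hkerpow
  have hinj : Function.Injective φ := LinearMap.ker_eq_bot.1 hker
  -- the cokernel is killed by some `f ≡ 1 mod π`
  have hQ : (⊤ : Submodule R[X] (M ⧸ LinearMap.range φ)) ≤
      I • (⊤ : Submodule R[X] (M ⧸ LinearMap.range φ)) := by
    intro q _
    obtain ⟨m, rfl⟩ := Submodule.Quotient.mk_surjective _ q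
    obtain ⟨g, m', rfl⟩ := hspan m
    have h1 : Submodule.Quotient.mk (p := LinearMap.range φ) (∑ i, g i • e i + ϖ • m') =
        ϖ • Submodule.Quotient.mk (p := LinearMap.range φ) m' := by
      rw [Submodule.Quotient.mk_add, Submodule.Quotient.mk_smul,
        (Submodule.Quotient.mk_eq_zero _).2 (LinearMap.mem_range.2 ⟨g, hφ g⟩), zero_add]
    rw [h1]
    exact Submodule.smul_mem_smul (Ideal.mem_span_singleton_self ϖ) Submodule.mem_top
  obtain ⟨f, hf1, hfQ⟩ := Submodule.exists_sub_one_mem_and_smul_eq_zero_of_fg_of_le_smul I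
    (⊤ : Submodule R[X] (M ⧸ LinearMap.range φ)) (Module.finite_def.1 inferInstance) hQ
  have hfM : ∀ m : M, f • m ∈ LinearMap.range φ := fun m => by
    have := hfQ (Submodule.Quotient.mk m) Submodule.mem_top
    rwa [← Submodule.Quotient.mk_smul, Submodule.Quotient.mk_eq_zero] at this
  -- `(f, π) = 1`
  have hspn : Ideal.span ({f, ϖ} : Set R[X]) = ⊤ := by
    rw [Ideal.eq_top_iff_one]
    obtain ⟨a, ha⟩ := Ideal.mem_span_singleton'.1 hf1
    have h1 : (1 : R[X]) = f - a * ϖ := by rw [ha]; ring
    rw [h1]
    exact Ideal.sub_mem _ (Ideal.subset_span (by simp))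
      (Ideal.mul_mem_left _ _ (Ideal.subset_span (by simp)))
  -- flatness of `M[1/f]`
  have hflat_f : Module.Flat R[X] (LocalizedModule.Away f M) := by
    let Sf := Submonoid.powers f
    let ψ : LocalizedModule Sf (Fin n → R[X]) →ₗ[R[X]] LocalizedModule Sf M :=
      IsLocalizedModule.map Sf (LocalizedModule.mkLinearMap Sf (Fin n → R[X]))
        (LocalizedModule.mkLinearMap Sf M) φ
    have hψinj : Function.Injective ψ := IsLocalizedModule.map_injective Sf _ _ φ hinj
    have hψsurj : Function.Surjective ψ := by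
      intro x
      obtain ⟨⟨m, s⟩, rfl⟩ := IsLocalizedModule.mk'_surjective Sf
        (LocalizedModule.mkLinearMap Sf M) x
      obtain ⟨y, hy⟩ := hfM m
      let fS : Sf := ⟨f, Submonoid.mem_powers f⟩
      refine ⟨IsLocalizedModule.mk' (LocalizedModule.mkLinearMap Sf (Fin n → R[X])) y (fS * s),
        ?_⟩
      simp only [Function.uncurry_apply_pair]
      have h1 : ψ (IsLocalizedModule.mk' (LocalizedModule.mkLinearMap Sf (Fin n → R[X])) y
          (fS * s)) = IsLocalizedModule.mk' (LocalizedModule.mkLinearMap Sf M) (φ y) (fS * s) :=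
        IsLocalizedModule.map_mk' Sf _ _ φ y (fS * s)
      rw [h1, hy]
      exact IsLocalizedModule.mk'_cancel_left (LocalizedModule.mkLinearMap Sf M) m fS s
    let eψ : LocalizedModule Sf (Fin n → R[X]) ≃ₗ[R[X]] LocalizedModule Sf M :=
      LinearEquiv.ofBijective ψ ⟨hψinj, hψsurj⟩
    have hfl0 : Module.Flat R[X] (LocalizedModule Sf (Fin n → R[X])) := by
      have hbc := IsLocalizedModule.isBaseChange Sf (Localization Sf)
        (LocalizedModule.mkLinearMap Sf (Fin n → R[X]))
      haveI : Module.Flat R[X] (Localization Sf) := IsLocalization.flat _ Sf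
      exact Module.Flat.of_linearEquiv (hbc.equiv.restrictScalars R[X]).symm
    exact Module.Flat.of_linearEquiv eψ.symm
  -- flatness of `M[1/π]`
  have hflat_π : Module.Flat R[X] (LocalizedModule.Away ϖ M) := by
    let K := FractionRing R
    letI : Algebra R[X] K[X] := (Polynomial.mapRingHom (algebraMap R K)).toAlgebra
    haveI hloc : IsLocalization.Away ϖ K[X] := by
      haveI : IsLocalization.Away π K := isLocalization_away_of_irreducible hπ K
      have h := Polynomial.isLocalization (Submonoid.powers π) K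
      have hmap : (Submonoid.powers π).map (C : R →+* R[X]) = Submonoid.powers ϖ := by
        rw [hϖ, Submonoid.map_powers]
      rw [hmap] at h
      exact h
    let Sπ := Submonoid.powers ϖ
    let N := TensorProduct R[X] K[X] M
    let g : M →ₗ[R[X]] N := TensorProduct.mk R[X] K[X] M 1
    haveI : IsLocalizedModule Sπ g :=
      (isLocalizedModule_iff_isBaseChange Sπ K[X] g).2 (TensorProduct.isBaseChange R[X] M K[X])
    haveI : Module.Flat R[X] N :=
      flat_of_isLocalizedModule_of_isPrincipalIdealRing (B := K[X])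
        (hN := TensorProduct.addCommGroup) Sπ g
    exact Module.Flat.of_linearEquiv
      (IsLocalizedModule.linearEquiv Sπ (LocalizedModule.mkLinearMap Sπ M) g)
  -- conclusion
  haveI : Module.Flat R[X] M := by
    refine Module.flat_of_localized_span (S := R[X]) (M := M) ({f, ϖ} : Set R[X]) hspn ?_
    rintro ⟨r, hr⟩
    rcases hr with rfl | hr
    · exact hflat_f
    · rw [Set.mem_singleton_iff] at hr
      subst hr
      exact hflat_π
  haveI : Module.FinitePresentation R[X] M := Module.finitePresentation_of_finite R[X] M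
  exact Module.Flat.projective_of_finitePresentation

end Main

end Fermat.Agent.T1.Coh60
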