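/-
Programme T1A (S19), brick G5a COH (helper60), part (e), file 3: FINITE PROJECTIVE OVER THE LINE.

`R` a DVR with uniformiser `π`, `C` an `R`-algebra which is a domain, `t : C` such that
* `C` is a finite `R[X]`-module (`X ↦ t`),
* `π` is a nonzero prime element of `C`,
* `t mod π` is transcendental over `R/π` (`π ∣ p(t) → π ∣ p`).
Then `C` is a projective `R[X]`-module (`projective_aeval_of_prime`).  Applied to both charts of a
two-chart ring over `R` this gives `Jac.TwoChart.FiniteProjOverLine`
(`finiteProjOverLine_of_dvr`), so that the base-general JAC cohomology files apply to the integral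
model and all its base changes.
-/
import Mathlib
import Fermat.Agent.T1.Coh60.ProjPoly
import Fermat.Agent.Jac.Core

set_option autoImplicit false
set_option linter.unusedSectionVars false
set_option linter.style.haveILetI false

universe u

open Polynomial

namespace Fermat.Agent.T1.Coh60

section Chart

variable {R : Type*} [CommRing R] [IsDomain R] [IsDiscreteValuationRing R] {π : R}
  (hπ : Irreducible π) {C : Type*} [CommRing C] [IsDomain C] [Algebra R C] (t : C)

include hπ

/-- If `t mod π` is transcendental over `R/π` then `t` is transcendental over `R`. -/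
theorem aeval_ne_zero_of_trans (hπC : algebraMap R C π ≠ 0)
    (htrans : ∀ p : R[X], algebraMap R C π ∣ aeval t p → (Polynomial.C π : R[X]) ∣ p)
    {p : R[X]} (hp : p ≠ 0) : aeval t p ≠ 0 := by
  have hnu : ¬ IsUnit (Polynomial.C π : R[X]) := fun h =>
    hπ.not_isUnit (Polynomial.isUnit_C.1 h)
  have hfin : FiniteMultiplicity (Polynomial.C π : R[X]) p := FiniteMultiplicity.of_not_isUnit hnu hp
  obtain ⟨p', hp', hnd⟩ := hfin.exists_eq_pow_mul_and_not_dvd
  intro h0
  rw [hp', map_mul, map_pow, aeval_C] at h0
  have h1 : aeval t p' = 0 := (mul_eq_zero.1 h0).resolve_left (pow_ne_zero _ hπC)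
  exact hnd (htrans p' (h1 ▸ dvd_zero _))

/-- **One chart**: `C` is projective over `R[X]` (`X ↦ t`). -/
theorem projective_aeval_of_prime (hfin : Module.Finite R[X] (Module.AEval R C t))
    (hπC : algebraMap R C π ≠ 0)
    (hprime : ∀ x y : C, algebraMap R C π ∣ x * y →
      algebraMap R C π ∣ x ∨ algebraMap R C π ∣ y)
    (htrans : ∀ p : R[X], algebraMap R C π ∣ aeval t p → (Polynomial.C π : R[X]) ∣ p) :
    Module.Projective R[X] (Module.AEval R C t) := by
  haveI := hfin
  have hsmul : ∀ (p : R[X]) (x : C),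
      p • Module.AEval.of R C t x = Module.AEval.of R C t (aeval t p * x) := fun p x => by
    rw [← smul_eq_mul, Module.AEval.of_aeval_smul]
  haveI : Module.IsTorsionFree R[X] (Module.AEval R C t) := by
    rw [Module.isTorsionFree_iff_smul_eq_zero]
    intro p m hpm
    obtain ⟨x, rfl⟩ := (Module.AEval.of R C t).surjective m
    rw [hsmul, LinearEquiv.map_eq_zero_iff] at hpm
    rcases mul_eq_zero.1 hpm with h | h
    · left
      by_contra hp
      exact aeval_ne_zero_of_trans hπ t hπC htrans hp h
    · right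
      rw [h, map_zero]
  apply projective_of_torsionFree_mod hπ
  rintro p m ⟨m', h⟩
  obtain ⟨x, rfl⟩ := (Module.AEval.of R C t).surjective m
  obtain ⟨x', rfl⟩ := (Module.AEval.of R C t).surjective m'
  rw [hsmul, hsmul, aeval_C] at h
  have h' : aeval t p * x = algebraMap R C π * x' := (Module.AEval.of R C t).injective h
  rcases hprime _ _ ⟨x', h'⟩ with hd | ⟨x'', hx''⟩
  · exact Or.inl (htrans p hd)
  · refine Or.inr ⟨Module.AEval.of R C t x'', ?_⟩
    rw [hsmul, aeval_C, hx'']

/-- **One chart, reducible special fibre allowed** (nodal models): instead of `π` prime and `t`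
transcendental modulo `π`, assume directly that `C/π` is torsion-free over `(R/π)[X]`:
`π ∣ p(t) * x → π ∣ p ∨ π ∣ x`, and that `π` is not a unit of `C`. -/
theorem projective_aeval_of_mod (hfin : Module.Finite R[X] (Module.AEval R C t))
    (hπC : algebraMap R C π ≠ 0) (hπu : ¬ IsUnit (algebraMap R C π))
    (hmod : ∀ (p : R[X]) (x : C), algebraMap R C π ∣ aeval t p * x →
      (Polynomial.C π : R[X]) ∣ p ∨ algebraMap R C π ∣ x) :
    Module.Projective R[X] (Module.AEval R C t) := by
  haveI := hfin
  have htrans : ∀ p : R[X], algebraMap R C π ∣ aeval t p → (Polynomial.C π : R[X]) ∣ p := by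
    intro p hp
    rcases hmod p 1 (by rwa [mul_one]) with h | h
    · exact h
    · exact absurd (isUnit_of_dvd_one h) hπu
  have hsmul : ∀ (p : R[X]) (x : C),
      p • Module.AEval.of R C t x = Module.AEval.of R C t (aeval t p * x) := fun p x => by
    rw [← smul_eq_mul, Module.AEval.of_aeval_smul]
  haveI : Module.IsTorsionFree R[X] (Module.AEval R C t) := by
    rw [Module.isTorsionFree_iff_smul_eq_zero]
    intro p m hpm
    obtain ⟨x, rfl⟩ := (Module.AEval.of R C t).surjective m
    rw [hsmul, LinearEquiv.map_eq_zero_iff] at hpm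
    rcases mul_eq_zero.1 hpm with h | h
    · left
      by_contra hp
      exact aeval_ne_zero_of_trans hπ t hπC htrans hp h
    · right
      rw [h, map_zero]
  apply projective_of_torsionFree_mod hπ
  rintro p m ⟨m', h⟩
  obtain ⟨x, rfl⟩ := (Module.AEval.of R C t).surjective m
  obtain ⟨x', rfl⟩ := (Module.AEval.of R C t).surjective m'
  rw [hsmul, hsmul, aeval_C] at h
  have h' : aeval t p * x = algebraMap R C π * x' := (Module.AEval.of R C t).injective h
  rcases hmod p x ⟨x', h'⟩ with hd | ⟨x'', hx''⟩
  · exact Or.inl hd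
  · refine Or.inr ⟨Module.AEval.of R C t x'', ?_⟩
    rw [hsmul, aeval_C, hx'']

end Chart

section TwoChart

open Fermat.Agent.Jac

variable {R C0 C1 C01 : Type u} [CommRing R] [IsDomain R] [IsDiscreteValuationRing R]
  [CommRing C0] [CommRing C1] [CommRing C01]
  [Algebra R C0] [Algebra R C1] [Algebra R C01] [Algebra C0 C01] [Algebra C1 C01]
  [IsScalarTower R C0 C01] [IsScalarTower R C1 C01] [IsDomain C0] [IsDomain C1]

/-- **Finite projective over the line** for a two-chart ring over a DVR whose charts are domains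
in which `π` is prime and the coordinates are transcendental modulo `π`. -/
theorem finiteProjOverLine_of_dvr (c : TwoChart R C0 C1 C01) {π : R} (hπ : Irreducible π)
    (fin0 : Module.Finite R[X] (Module.AEval R C0 c.t))
    (fin1 : Module.Finite R[X] (Module.AEval R C1 c.s))
    (hπ0 : algebraMap R C0 π ≠ 0) (hπ1 : algebraMap R C1 π ≠ 0)
    (hprime0 : ∀ x y : C0, algebraMap R C0 π ∣ x * y →
      algebraMap R C0 π ∣ x ∨ algebraMap R C0 π ∣ y)
    (hprime1 : ∀ x y : C1, algebraMap R C1 π ∣ x * y →
      algebraMap R C1 π ∣ x ∨ algebraMap R C1 π ∣ y)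
    (htrans0 : ∀ p : R[X], algebraMap R C0 π ∣ aeval c.t p → (Polynomial.C π : R[X]) ∣ p)
    (htrans1 : ∀ p : R[X], algebraMap R C1 π ∣ aeval c.s p → (Polynomial.C π : R[X]) ∣ p) :
    c.FiniteProjOverLine where
  fin0 := fin0
  proj0 := projective_aeval_of_prime hπ c.t fin0 hπ0 hprime0 htrans0
  fin1 := fin1
  proj1 := projective_aeval_of_prime hπ c.s fin1 hπ1 hprime1 htrans1

/-- **Finite projective over the line, reducible special fibre allowed** (nodal models). -/
theorem finiteProjOverLine_of_mod (c : TwoChart R C0 C1 C01) {π : R} (hπ : Irreducible π)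
    (fin0 : Module.Finite R[X] (Module.AEval R C0 c.t))
    (fin1 : Module.Finite R[X] (Module.AEval R C1 c.s))
    (hπ0 : algebraMap R C0 π ≠ 0) (hπ1 : algebraMap R C1 π ≠ 0)
    (hu0 : ¬ IsUnit (algebraMap R C0 π)) (hu1 : ¬ IsUnit (algebraMap R C1 π))
    (hmod0 : ∀ (p : R[X]) (x : C0), algebraMap R C0 π ∣ aeval c.t p * x →
      (Polynomial.C π : R[X]) ∣ p ∨ algebraMap R C0 π ∣ x)
    (hmod1 : ∀ (p : R[X]) (x : C1), algebraMap R C1 π ∣ aeval c.s p * x →
      (Polynomial.C π : R[X]) ∣ p ∨ algebraMap R C1 π ∣ x) :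
    c.FiniteProjOverLine where
  fin0 := fin0
  proj0 := projective_aeval_of_mod hπ c.t fin0 hπ0 hu0 hmod0
  fin1 := fin1
  proj1 := projective_aeval_of_mod hπ c.s fin1 hπ1 hu1 hmod1

end TwoChart

end Fermat.Agent.T1.Coh60
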