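/-
Programme T1A (S19), brick G5a COH (helper60) = slice (e) of G1 MODEL-COH:
`Jac.TwoChart.FiniteProjOverLine` FOR THE TWO-CHART MODEL `RED.CORE.CoreIface24.TwoChartModel`.

Extra hypotheses (not derivable from `TwoChartModel`, see the degenerate example `F = K`):
* `fin1`   : `B1` is a finite `R[t⁻¹]`-module (same shape as the field `fin0`);
* `htrans` : `t mod π` is transcendental over `R/π`:
             `∀ p : R[X], (∃ c ∈ Ov, aeval t p = π * c) → C π ∣ p`.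
The same statement for `t⁻¹` is derived (`trans_inv`).
-/
import Mathlib
import Fermat.Agent.T1.Coh60.Line
import Fermat.Agent.T1.ModelCoh30.Basic

set_option autoImplicit false
set_option linter.unusedSectionVars false
set_option linter.style.haveILetI false

universe u

open Polynomial

namespace Fermat.Agent.T1.Coh60

open Fermat.Agent.RED.CORE.CoreIface24 Fermat.Agent.T1.ModelCoh30

section Gens

variable {R : Type*} [CommRing R] {C : Type*} [CommRing C] [Algebra R C]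

/-- Explicit generators give finiteness of `AEval`. -/
theorem finite_aeval_of_gens (τ : C) {r : ℕ} (e : Fin r → C)
    (h : ∀ x : C, ∃ P : Fin r → R[X], x = ∑ i, aeval τ (P i) * e i) :
    Module.Finite R[X] (Module.AEval R C τ) := by
  let φ : (Fin r → R[X]) →ₗ[R[X]] Module.AEval R C τ :=
    Fintype.linearCombination R[X] (fun i => Module.AEval.of R C τ (e i))
  apply Module.Finite.of_surjective φ
  intro m
  obtain ⟨x, rfl⟩ := (Module.AEval.of R C τ).surjective m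
  obtain ⟨P, hP⟩ := h x
  refine ⟨P, ?_⟩
  rw [Fintype.linearCombination_apply, hP, map_sum]
  refine Finset.sum_congr rfl fun i _ => ?_
  rw [← smul_eq_mul, Module.AEval.of_aeval_smul]

end Gens

variable {R F : Type u} {K : Type*} [CommRing R] [Field K] [Field F] [Algebra R K] [Algebra K F]
  [Algebra R F] [IsScalarTower R K F]
variable {π : R} {t : F} {B0 B1 : Subalgebra R F} {Ov : ValuationSubring F}

/-- The base of a two-chart model is a discrete valuation ring. -/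
theorem isDiscreteValuationRing_of_model (M : TwoChartModel R K F π t B0 B1 Ov) :
    @IsDiscreteValuationRing R _ (isDomain M) := by
  haveI := isDomain M
  refine IsDiscreteValuationRing.ofHasUnitMulPowIrreducibleFactorization
    ⟨π, pi_irreducible M, fun {x} hx => ?_⟩
  obtain ⟨k, v, hv⟩ := M.dvrR x hx
  exact ⟨k, v, hv.symm⟩

/-- In `Ov`, `π` is prime: a product in `π Ov` has a factor in `π Ov`. -/
theorem mem_pi_Ov_of_mul (M : TwoChartModel R K F π t B0 B1 Ov) {x y z : F} (hx : x ∈ Ov)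
    (hy : y ∈ Ov) (hz : z ∈ Ov) (h : x * y = algebraMap R F π * z) :
    (∃ c ∈ Ov, x = algebraMap R F π * c) ∨ ∃ c ∈ Ov, y = algebraMap R F π * c := by
  by_contra hcon
  rw [not_or] at hcon
  have hx' : x⁻¹ ∈ Ov := by
    by_contra hx'
    exact hcon.1 (M.unif x hx hx')
  have hy' : y⁻¹ ∈ Ov := by
    by_contra hy'
    exact hcon.2 (M.unif y hy hy')
  have hx0 : x ≠ 0 := by
    rintro rfl
    exact hcon.1 ⟨0, Ov.zero_mem, by rw [mul_zero]⟩
  have hy0 : y ≠ 0 := by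
    rintro rfl
    exact hcon.2 ⟨0, Ov.zero_mem, by rw [mul_zero]⟩
  apply M.pi_nonunit
  have h1 : (algebraMap R F π)⁻¹ = z * (x⁻¹ * y⁻¹) := by
    rw [eq_comm, ← mul_inv, ← div_eq_mul_inv, div_eq_iff (mul_ne_zero hx0 hy0), h,
      inv_mul_cancel_left₀ M.pi_ne]
  rw [h1]
  exact mul_mem hz (mul_mem hx' hy')

/-- `π` is a prime element of the chart `B0`. -/
theorem prime0 (M : TwoChartModel R K F π t B0 B1 Ov) (x y : ↥B0)
    (h : algebraMap R ↥B0 π ∣ x * y) : algebraMap R ↥B0 π ∣ x ∨ algebraMap R ↥B0 π ∣ y := by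
  obtain ⟨z, hz⟩ := h
  have hz' : (x : F) * y = algebraMap R F π * z := congrArg (fun b : ↥B0 => (b : F)) hz
  rcases mem_pi_Ov_of_mul M (M.le_Ov0 _ x.2) (M.le_Ov0 _ y.2) (M.le_Ov0 _ z.2) hz' with
    ⟨c, hc, hxc⟩ | ⟨c, hc, hyc⟩
  · exact Or.inl ⟨⟨c, M.sat0 x x.2 c hc hxc⟩, Subtype.ext hxc⟩
  · exact Or.inr ⟨⟨c, M.sat0 y y.2 c hc hyc⟩, Subtype.ext hyc⟩

/-- `π` is a prime element of the chart `B1`. -/
theorem prime1 (M : TwoChartModel R K F π t B0 B1 Ov) (x y : ↥B1)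
    (h : algebraMap R ↥B1 π ∣ x * y) : algebraMap R ↥B1 π ∣ x ∨ algebraMap R ↥B1 π ∣ y := by
  obtain ⟨z, hz⟩ := h
  have hz' : (x : F) * y = algebraMap R F π * z := congrArg (fun b : ↥B1 => (b : F)) hz
  rcases mem_pi_Ov_of_mul M (M.le_Ov1 _ x.2) (M.le_Ov1 _ y.2) (M.le_Ov1 _ z.2) hz' with
    ⟨c, hc, hxc⟩ | ⟨c, hc, hyc⟩
  · exact Or.inl ⟨⟨c, M.sat1 x x.2 c hc hxc⟩, Subtype.ext hxc⟩
  · exact Or.inr ⟨⟨c, M.sat1 y y.2 c hc hyc⟩, Subtype.ext hyc⟩

/-- Transcendence of `t mod π` implies that of `t⁻¹ mod π`. -/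
theorem trans_inv (M : TwoChartModel R K F π t B0 B1 Ov)
    (htrans : ∀ p : R[X], (∃ c ∈ Ov, aeval t p = algebraMap R F π * c) → (C π : R[X]) ∣ p)
    (p : R[X]) (h : ∃ c ∈ Ov, aeval t⁻¹ p = algebraMap R F π * c) : (C π : R[X]) ∣ p := by
  obtain ⟨c, hc, hpc⟩ := h
  letI : Invertible (t⁻¹ : F) := ⟨t, mul_inv_cancel₀ M.t_ne, inv_mul_cancel₀ M.t_ne⟩
  have hrev : aeval t (reverse p) * t⁻¹ ^ p.natDegree = aeval t⁻¹ p :=
    eval₂_reverse_mul_pow (algebraMap R F) (t⁻¹ : F) p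
  have h1 : aeval t (reverse p) = algebraMap R F π * (c * t ^ p.natDegree) := by
    have : aeval t (reverse p) = aeval t⁻¹ p * t ^ p.natDegree := by
      rw [← hrev, mul_assoc, ← mul_pow, inv_mul_cancel₀ M.t_ne, one_pow, mul_one]
    rw [this, hpc, mul_assoc]
  have h2 := htrans (reverse p)
    ⟨_, mul_mem hc (pow_mem (t_mem_Ov M) _), h1⟩
  rw [C_dvd_iff_dvd_coeff] at h2 ⊢
  intro i
  have := h2 (revAt p.natDegree i)
  rwa [coeff_reverse, revAt_invol] at this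

section Charts

variable (M : TwoChartModel R K F π t B0 B1 Ov)
  (htrans : ∀ p : R[X], (∃ c ∈ Ov, aeval t p = algebraMap R F π * c) → (C π : R[X]) ∣ p)

theorem finite_chart0 : Module.Finite R[X] (Module.AEval R ↥B0 (⟨t, M.t_mem⟩ : ↥B0)) := by
  obtain ⟨r, e, he, hgen⟩ := M.fin0
  refine finite_aeval_of_gens (⟨t, M.t_mem⟩ : ↥B0) (fun i => (⟨e i, he i⟩ : ↥B0)) (fun x => ?_)
  obtain ⟨P, hP⟩ := hgen x x.2
  refine ⟨P, Subtype.ext ?_⟩
  rw [hP]
  simp [← Subalgebra.aeval_coe]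

theorem finite_chart1
    (fin1 : ∃ (r : ℕ) (e : Fin r → F), (∀ i, e i ∈ B1) ∧
      ∀ x ∈ B1, ∃ P : Fin r → R[X], x = ∑ i, aeval t⁻¹ (P i) * e i) :
    Module.Finite R[X] (Module.AEval R ↥B1 (⟨t⁻¹, M.tinv_mem⟩ : ↥B1)) := by
  obtain ⟨r, e, he, hgen⟩ := fin1
  refine finite_aeval_of_gens (⟨t⁻¹, M.tinv_mem⟩ : ↥B1) (fun i => (⟨e i, he i⟩ : ↥B1))
    (fun x => ?_)
  obtain ⟨P, hP⟩ := hgen x x.2
  refine ⟨P, Subtype.ext ?_⟩
  rw [hP]
  simp [← Subalgebra.aeval_coe]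

include htrans

/-- **Chart 0 is projective over `R[X]`, `X ↦ t`.** -/
theorem projective_chart0 :
    Module.Projective R[X] (Module.AEval R ↥B0 (⟨t, M.t_mem⟩ : ↥B0)) := by
  haveI := isDomain M
  haveI := isDiscreteValuationRing_of_model M
  refine projective_aeval_of_prime (pi_irreducible M) (⟨t, M.t_mem⟩ : ↥B0) (finite_chart0 M)
    (fun h => M.pi_ne (congrArg (fun b : ↥B0 => (b : F)) h)) (prime0 M) (fun p hp => ?_)
  obtain ⟨z, hz⟩ := hp
  refine htrans p ⟨z, M.le_Ov0 _ z.2, ?_⟩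
  have := congrArg (fun b : ↥B0 => (b : F)) hz
  simpa [← Subalgebra.aeval_coe] using this

/-- **Chart 1 is projective over `R[X]`, `X ↦ t⁻¹`.** -/
theorem projective_chart1
    (fin1 : ∃ (r : ℕ) (e : Fin r → F), (∀ i, e i ∈ B1) ∧
      ∀ x ∈ B1, ∃ P : Fin r → R[X], x = ∑ i, aeval t⁻¹ (P i) * e i) :
    Module.Projective R[X] (Module.AEval R ↥B1 (⟨t⁻¹, M.tinv_mem⟩ : ↥B1)) := by
  haveI := isDomain M
  haveI := isDiscreteValuationRing_of_model M
  refine projective_aeval_of_prime (pi_irreducible M) (⟨t⁻¹, M.tinv_mem⟩ : ↥B1)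
    (finite_chart1 M fin1)
    (fun h => M.pi_ne (congrArg (fun b : ↥B1 => (b : F)) h)) (prime1 M) (fun p hp => ?_)
  obtain ⟨z, hz⟩ := hp
  refine trans_inv M htrans p ⟨z, M.le_Ov1 _ z.2, ?_⟩
  have := congrArg (fun b : ↥B1 => (b : F)) hz
  simpa [← Subalgebra.aeval_coe] using this

include M in
open Fermat.Agent.Jac in
/-- **(e) FiniteProjOverLine of the two-chart model**, for ANY two-chart structure on
`(B0, B1, B0 ⊔ B1)` whose coordinates are `t` and `t⁻¹` (whatever the algebra instances). -/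
theorem finiteProjOverLine_of_model [Algebra ↥B0 ↥(B0 ⊔ B1)] [Algebra ↥B1 ↥(B0 ⊔ B1)]
    [IsScalarTower R ↥B0 ↥(B0 ⊔ B1)] [IsScalarTower R ↥B1 ↥(B0 ⊔ B1)]
    (c : TwoChart R ↥B0 ↥B1 ↥(B0 ⊔ B1)) (ht : (c.t : F) = t) (hs : (c.s : F) = t⁻¹)
    (fin1 : ∃ (r : ℕ) (e : Fin r → F), (∀ i, e i ∈ B1) ∧
      ∀ x ∈ B1, ∃ P : Fin r → R[X], x = ∑ i, aeval t⁻¹ (P i) * e i) :
    c.FiniteProjOverLine := by
  have ht' : c.t = (⟨t, M.t_mem⟩ : ↥B0) := Subtype.ext ht
  have hs' : c.s = (⟨t⁻¹, M.tinv_mem⟩ : ↥B1) := Subtype.ext hs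
  refine ⟨?_, ?_, ?_, ?_⟩
  · rw [ht']; exact finite_chart0 M
  · rw [ht']; exact projective_chart0 M htrans
  · rw [hs']; exact finite_chart1 M fin1
  · rw [hs']; exact projective_chart1 M htrans fin1

end Charts

/-! ### The canonical two-chart structure of the model -/

section Canonical

open Fermat.Agent.Jac

/-- `B0 ⊔ B1` as a `B0`-algebra (the inclusion). -/
noncomputable abbrev algebra0 (B0 B1 : Subalgebra R F) : Algebra ↥B0 ↥(B0 ⊔ B1) :=
  (ρ0 B0 B1).toRingHom.toAlgebra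

/-- `B0 ⊔ B1` as a `B1`-algebra (the inclusion). -/
noncomputable abbrev algebra1 (B0 B1 : Subalgebra R F) : Algebra ↥B1 ↥(B0 ⊔ B1) :=
  (ρ1 B0 B1).toRingHom.toAlgebra

theorem isScalarTower0 (B0 B1 : Subalgebra R F) :
    @IsScalarTower R ↥B0 ↥(B0 ⊔ B1) _ (algebra0 B0 B1).toSMul _ :=
  letI := algebra0 B0 B1
  IsScalarTower.of_algebraMap_eq (fun _ => rfl)

theorem isScalarTower1 (B0 B1 : Subalgebra R F) :
    @IsScalarTower R ↥B1 ↥(B0 ⊔ B1) _ (algebra1 B0 B1).toSMul _ :=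
  letI := algebra1 B0 B1
  IsScalarTower.of_algebraMap_eq (fun _ => rfl)

/-- The two-chart ring `(B0, B1, B0 ⊔ B1)` of the model, coordinates `t`, `t⁻¹`. -/
noncomputable def modelChart (M : TwoChartModel R K F π t B0 B1 Ov) :
    @TwoChart R ↥B0 ↥B1 ↥(B0 ⊔ B1) _ _ _ _ _ _ _ (algebra0 B0 B1) (algebra1 B0 B1)
      (isScalarTower0 B0 B1) (isScalarTower1 B0 B1) :=
  letI := algebra0 B0 B1
  letI := algebra1 B0 B1
  haveI := isScalarTower0 B0 B1
  haveI := isScalarTower1 B0 B1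
  { t := ⟨t, M.t_mem⟩
    s := ⟨t⁻¹, M.tinv_mem⟩
    away0 := away0 M
    away1 := away1 M
    ts := Subtype.ext (mul_inv_cancel₀ M.t_ne) }

/-- **(e)** for the canonical two-chart structure. -/
theorem modelChart_finiteProjOverLine (M : TwoChartModel R K F π t B0 B1 Ov)
    (htrans : ∀ p : R[X], (∃ c ∈ Ov, aeval t p = algebraMap R F π * c) → (C π : R[X]) ∣ p)
    (fin1 : ∃ (r : ℕ) (e : Fin r → F), (∀ i, e i ∈ B1) ∧
      ∀ x ∈ B1, ∃ P : Fin r → R[X], x = ∑ i, aeval t⁻¹ (P i) * e i) :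
    @TwoChart.FiniteProjOverLine R ↥B0 ↥B1 ↥(B0 ⊔ B1) _ _ _ _ _ _ _ (algebra0 B0 B1)
      (algebra1 B0 B1) (isScalarTower0 B0 B1) (isScalarTower1 B0 B1) (modelChart M) :=
  letI := algebra0 B0 B1
  letI := algebra1 B0 B1
  haveI := isScalarTower0 B0 B1
  haveI := isScalarTower1 B0 B1
  finiteProjOverLine_of_model M htrans (modelChart M) rfl rfl fin1

end Canonical

end Fermat.Agent.T1.Coh60
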