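/-
Programme T1A (S19), brick G5a COH (helper60), part (coh): finiteness of the cohomology of a
two-chart module over a noetherian base, and constancy of the Euler characteristic over a domain
(in particular over a DVR `R`: special fibre versus generic fibre versus ranks of `H⁰`, `H¹`).

Everything is a corollary of the base-general JAC cohomology files (`Jac/P1CohH1`, `Jac/P1CohH0`,
`Jac/P1CohChi`, `Jac/FlatBC60`).  `L : QC2 A R0 R1 R01` is finite and projective over the line
(`FiniteOverLine`, `ProjOverLine`; automatic for line bundles when the chart `c` is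
`FiniteProjOverLine`: `LineOps39.finiteOverLine_of_isLine`, `projOverLine_of_isLine`).

* `finite_H1`, `finite_H0`            : `H¹(L)`, `H⁰(L)` are finitely generated `A`-modules;
* `chi_eq`                            : `L.chi` is constant on `Spec A` for a domain `A`;
* `chiField_eq`                       : `χ(L_K₁) = χ(L_K₂)` for any two `A`-fields;
* `chiField_eq_finrank_sub`           : `χ(L_K) = rank_A H⁰(L) - rank_A H¹(L)`, `K = Frac A`;
* `chiField_eq_finrank_sub_of_field`  : the same at ANY `A`-field (e.g. the residue field of a DVR).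
-/
import Mathlib
import Fermat.Agent.Jac.P1CohChi.Main
import Fermat.Agent.Jac.P1CohH1
import Fermat.Agent.Jac.FlatBC60

set_option autoImplicit false
set_option linter.unusedSectionVars false
set_option linter.style.haveILetI false

universe u

open TensorProduct Polynomial

namespace Fermat.Agent.T1.Coh60

open Fermat.Agent.Jac

variable {A R0 R1 R01 : Type u} [CommRing A] [CommRing R0] [CommRing R1] [CommRing R01]
  [Algebra A R0] [Algebra A R1] [Algebra A R01] [Algebra R0 R01] [Algebra R1 R01]
  [IsScalarTower A R0 R01] [IsScalarTower A R1 R01]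
  (c : TwoChart A R0 R1 R01) (L : QC2 A R0 R1 R01)

/-- `H¹(L)` is a finitely generated `A`-module. -/
theorem finite_H1 (hF : L.FiniteOverLine c) : Module.Finite A L.H1 :=
  P1CohH1.finite_H1 c L hF

/-- The map `H⁰(L) → H⁰(L(m))`, `(x₀, x₁) ↦ (x₀, s^m x₁)`. -/
def toTwistH0 (m : ℕ) : L.H0 →ₗ[A] (L.twist c m).H0 :=
  LinearMap.codRestrict _ ((P1CohChi.shift c L m).comp L.H0.subtype) (fun x => by
    have hx : L.d x.1 = 0 := x.2
    have h := LinearMap.congr_fun (P1CohChi.twist_d_comp_shift c L 0 m) x.1
    rw [P1CohChi.twist_zero_d, LinearMap.comp_apply, zero_add] at h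
    show (L.twist c m).d _ = 0
    rw [LinearMap.comp_apply, Submodule.subtype_apply, ← h, hx])

theorem toTwistH0_injective (hP : L.ProjOverLine c) (m : ℕ) :
    Function.Injective (toTwistH0 c L m) := by
  have := hP.proj1
  have hs : IsSMulRegular L.N1 c.s := P1CohChi.Fibre.isSMulRegular_of_projective (A := A) c.s
  intro x y h
  have h' := congrArg Subtype.val h
  exact Subtype.ext (P1CohChi.shift_injective c L m hs h')

/-- `H⁰(L)` is a finitely generated `A`-module (`A` noetherian). -/
theorem finite_H0 [IsNoetherianRing A] (hF : L.FiniteOverLine c) (hP : L.ProjOverLine c) :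
    Module.Finite A L.H0 := by
  have := hF.fin0
  obtain ⟨m₀, h⟩ := P1CohChi.exists_twist_d_surjective c L
  have hgood := P1CohChi.goodH0_twist c L hF hP (m₀ : ℤ) (h m₀ le_rfl)
  haveI : Module.Finite A (L.twist c (m₀ : ℤ)).H0 := hgood.fin
  haveI : IsNoetherian A (L.twist c (m₀ : ℤ)).H0 := isNoetherian_of_isNoetherianRing_of_finite _ _
  exact Module.Finite.of_injective (toTwistH0 c L m₀) (toTwistH0_injective c L hP m₀)

/-- Over a domain the fibrewise Euler characteristic is constant on `Spec A`. -/
theorem chi_eq [IsDomain A] (hF : L.FiniteOverLine c) (hP : L.ProjOverLine c)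
    (p q : PrimeSpectrum A) : L.chi p = L.chi q :=
  (P1CohChi.isLocallyConstant_chi c L hF hP).apply_eq_of_preconnectedSpace p q

/-- Over a domain the Euler characteristic of the fibre at an `A`-field does not depend on the
field; the fibre cohomology is finite-dimensional. -/
theorem chiField_eq [IsDomain A] (hF : L.FiniteOverLine c) (hP : L.ProjOverLine c)
    (K₁ K₂ : Type u) [Field K₁] [Field K₂] [Algebra A K₁] [Algebra A K₂] :
    L.chiField K₁ = L.chiField K₂ := by
  have q₁ : PrimeSpectrum K₁ := ⟨⊥, Ideal.isPrime_bot⟩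
  have q₂ : PrimeSpectrum K₂ := ⟨⊥, Ideal.isPrime_bot⟩
  rw [(P1CohChi.chiField_eq_chi c L hF hP K₁ q₁).2.2,
    (P1CohChi.chiField_eq_chi c L hF hP K₂ q₂).2.2]
  exact chi_eq c L hF hP _ _

/-- Finite-dimensionality of the cohomology of the fibres. -/
theorem finiteDimensional_fibre (hF : L.FiniteOverLine c) (hP : L.ProjOverLine c)
    (K : Type u) [Field K] [Algebra A K] :
    FiniteDimensional K (L.H0BC K) ∧ FiniteDimensional K (L.H1BC K) := by
  have q : PrimeSpectrum K := ⟨⊥, Ideal.isPrime_bot⟩
  exact ⟨(P1CohChi.chiField_eq_chi c L hF hP K q).1, (P1CohChi.chiField_eq_chi c L hF hP K q).2.1⟩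

/-- At a flat `A`-field (e.g. the fraction field of a domain) the Euler characteristic is
`rank H⁰ - rank H¹`. -/
theorem chiField_eq_finrank_tensor_sub (K : Type u) [Field K] [Algebra A K] [Module.Flat A K] :
    L.chiField K =
      (Module.finrank K (K ⊗[A] L.H0) : ℤ) - Module.finrank K (K ⊗[A] L.H1) := by
  unfold QC2.chiField
  rw [(FlatBC60.H0BCEquiv L K).finrank_eq, (FlatBC60.H1BCEquiv L K).finrank_eq]

/-- **Generic fibre**: for a domain `A` with fraction field `K`,
`χ(L_K) = rank_A H⁰(L) - rank_A H¹(L)`. -/
theorem chiField_eq_finrank_sub [IsDomain A] (K : Type u) [Field K] [Algebra A K]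
    [IsFractionRing A K] :
    L.chiField K = (Module.finrank A L.H0 : ℤ) - Module.finrank A L.H1 := by
  haveI : Module.Flat A K := IsLocalization.flat K (nonZeroDivisors A)
  rw [chiField_eq_finrank_tensor_sub L K,
    (TensorProduct.isBaseChange A L.H0 K).finrank_eq,
    (TensorProduct.isBaseChange A L.H1 K).finrank_eq]

/-- **Euler characteristic constancy** (e.g. `A` a DVR, `κ` its residue field): at ANY `A`-field
`κ`, `dim H⁰(L_κ) - dim H¹(L_κ) = rank_A H⁰(L) - rank_A H¹(L)`. -/
theorem chiField_eq_finrank_sub_of_field [IsDomain A] (hF : L.FiniteOverLine c)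
    (hP : L.ProjOverLine c) (κ : Type u) [Field κ] [Algebra A κ] :
    L.chiField κ = (Module.finrank A L.H0 : ℤ) - Module.finrank A L.H1 := by
  rw [chiField_eq c L hF hP κ (FractionRing A), chiField_eq_finrank_sub L (FractionRing A)]

end Fermat.Agent.T1.Coh60
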