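/-
Programme T1A (S19), brick G5a COH (helper60): the extra hypothesis `htrans` of
`Coh60.ModelLine` ("`t mod π` is transcendental over `R/π`") FOR GAUSS VALUATION RINGS.

* `trans_of_red`       : abstract criterion via a reduction map `red : Ov → L` (same shape as
                         `ModelCoh30.resAlgClosed_of_red`);
* `trans_gaussVS`      : for a model over `gaussVS hπ E hE` whose coordinate has transcendental
                         reduction in `κ((q))`;
* `trans_gaussVS_tq`   : in particular when `t` is the Hauptmodul series `tq Kt n e`;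
* `modelChart_finiteProjOverLine_tq` : `FiniteProjOverLine` for such a model (only `fin1` left).
-/
import Mathlib
import Fermat.Agent.T1.Coh60.ModelLine
import Fermat.Agent.T1.ModelCoh30.GaussRes

set_option autoImplicit false
set_option linter.unusedSectionVars false
set_option linter.style.haveILetI false

universe u

noncomputable section

open Polynomial

namespace Fermat.Agent.T1.Coh60

open Fermat.Agent.RED.CORE.CoreIface24 Fermat.Agent.T1.ModelCoh30
  Fermat.Agent.RED.PUR.GaussGen8

section Abstract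

variable {R K F : Type*} [CommRing R] [Field K] [Field F] [Algebra R K] [Algebra K F]
  [Algebra R F] [IsScalarTower R K F]
variable {π : R} {t : F} {B0 B1 : Subalgebra R F} {Ov : ValuationSubring F}

/-- Abstract criterion for `htrans`: a reduction map `red : Ov → L` killing `π`, whose restriction
`redR` to `R` has kernel `π R`, and such that `red t` is transcendental over `redR R`. -/
theorem trans_of_red (M : TwoChartModel R K F π t B0 B1 Ov) {L : Type*} [CommRing L]
    (red : ↥Ov →+* L) (redR : R →+* L)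
    (hred : ∀ (r : R) (h : algebraMap R F r ∈ Ov), red ⟨_, h⟩ = redR r) (hpi : redR π = 0)
    (hkerR : ∀ r : R, redR r = 0 → π ∣ r)
    (htr : ∀ p : R[X], eval₂ redR (red ⟨t, M.le_Ov0 t M.t_mem⟩) p = 0 →
      ∀ i, redR (p.coeff i) = 0)
    (p : R[X]) (h : ∃ c ∈ Ov, aeval t p = algebraMap R F π * c) : (C π : R[X]) ∣ p := by
  obtain ⟨c, hc, hpc⟩ := h
  set τ : ↥Ov := ⟨t, M.le_Ov0 t M.t_mem⟩ with hτ
  have hcomp : red.comp (toOv M) = redR := by
    ext r
    exact hred r (algebraMap_mem_Ov M r)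
  have h1 : eval₂ (toOv M) τ p = toOv M π * ⟨c, hc⟩ := by
    apply Subtype.ext
    rw [coe_eval₂_toOv]
    exact hpc
  have h2 : eval₂ redR (red τ) p = 0 := by
    rw [← hcomp, ← hom_eval₂, h1, map_mul]
    have : red (toOv M π) = redR π := hred π (algebraMap_mem_Ov M π)
    rw [this, hpi, zero_mul]
  rw [C_dvd_iff_dvd_coeff]
  exact fun i => hkerR _ (htr p h2 i)

end Abstract

section Gauss

attribute [local instance] Fermat.Agent.RED.NumInst4.isScalarTower_OE

variable {Kt : Type u} [Field Kt] {O : ValuationSubring Kt}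
  {E : IntermediateField Kt (LaurentSeries Kt)}

/-- `htrans` for a model over a Gauss valuation ring, when the reduction of the coordinate `t`
in `κ((q))` is transcendental over `κ`. -/
theorem trans_gaussVS {π : O} (hπ : IsUnif O π) (hE : E ≤ fracField O) {t : E}
    {B0 B1 : Subalgebra ↥O ↥E}
    (M : TwoChartModel ↥O Kt ↥E π t B0 B1 (gaussVS hπ E hE))
    (htr : Transcendental (Res O) (gaussVSRed hπ E hE ⟨t, M.le_Ov0 t M.t_mem⟩))
    (p : (↥O)[X])
    (h : ∃ c ∈ gaussVS hπ E hE, aeval t p = algebraMap ↥O ↥E π * c) : (C π : (↥O)[X]) ∣ p := by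
  have hcoe : ∀ a : O, ((algebraMap ↥O ↥E a : E) : LaurentSeries Kt) = HahnSeries.C ((a : O) : Kt) :=
    Fermat.Agent.RED.NumInst4.coe_algebraMap_OE O E
  refine trans_of_red M (gaussVSRed hπ E hE)
    ((HahnSeries.C : Res O →+* LaurentSeries (Res O)).comp (res0 O)) ?_ ?_ ?_ ?_ p h
  · intro r h
    rw [gaussVSRed_apply]
    have : (⟨((⟨algebraMap ↥O ↥E r, h⟩ : gaussVS hπ E hE) : E),
        (mem_gaussVS_iff hπ E hE _).mp h⟩ : gaussRing O) = constG O r :=
      Subtype.ext (hcoe r)
    rw [this, gaussRed_constG]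
    rfl
  · show HahnSeries.C (res0 O π) = 0
    rw [res0_unif hπ, map_zero]
  · intro r hr
    have h0 : res0 O r = 0 := by
      have : (HahnSeries.C (res0 O r) : LaurentSeries (Res O)) = HahnSeries.C 0 := by
        rw [map_zero]
        exact hr
      exact HahnSeries.C_injective this
    obtain ⟨x', hx'⟩ := (res0_eq_zero_iff hπ r).1 h0
    exact ⟨x', hx'⟩
  · intro q hq i
    have halg : algebraMap (Res O) (LaurentSeries (Res O)) =
        (HahnSeries.C : Res O →+* LaurentSeries (Res O)) := by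
      ext1 c
      exact Fermat.Agent.RED.PUR.GaussGen8.algebraMap_eq_C c
    have h1 : aeval (gaussVSRed hπ E hE ⟨t, M.le_Ov0 t M.t_mem⟩) (q.map (res0 O)) = 0 := by
      rw [aeval_def, eval₂_map, halg]
      exact hq
    have h2 : q.map (res0 O) = 0 := by
      by_contra hne
      exact htr ⟨_, hne, h1⟩
    have h3 := congrArg (fun f => f.coeff i) h2
    simp only [coeff_map, coeff_zero] at h3
    show HahnSeries.C (res0 O (q.coeff i)) = 0
    rw [h3, map_zero]

open Fermat.Agent.RED.BASE.EtaQuot12 Fermat.Agent.RED.BASE.TBridge15 in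
/-- `htrans` when the coordinate is the Hauptmodul series `tq Kt n e`. -/
theorem trans_gaussVS_tq {π : O} (hπ : IsUnif O π) (hE : E ≤ fracField O) {t : E}
    {B0 B1 : Subalgebra ↥O ↥E}
    (M : TwoChartModel ↥O Kt ↥E π t B0 B1 (gaussVS hπ E hE)) (n e : ℕ) [NeZero n]
    (ht : ((t : E) : LaurentSeries Kt) = tq Kt n e) (p : (↥O)[X])
    (h : ∃ c ∈ gaussVS hπ E hE, aeval t p = algebraMap ↥O ↥E π * c) : (C π : (↥O)[X]) ∣ p := by
  refine trans_gaussVS hπ hE M ?_ p h
  rw [gaussVSRed_apply]
  have hmem : tq Kt n e ∈ gaussRing O := tq_mem_gaussRing O n e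
  have : (⟨((⟨t, M.le_Ov0 t M.t_mem⟩ : gaussVS hπ E hE) : E),
      (mem_gaussVS_iff hπ E hE _).mp (M.le_Ov0 t M.t_mem)⟩ : gaussRing O) = ⟨tq Kt n e, hmem⟩ :=
    Subtype.ext ht
  rw [this, gaussRed_eq_tq]
  exact transcendental_tq (Res O) n e

open Fermat.Agent.RED.BASE.EtaQuot12 in
/-- **FiniteProjOverLine** for a two-chart model over a Gauss valuation ring with coordinate the
Hauptmodul series; the only remaining input is `fin1`. -/
theorem modelChart_finiteProjOverLine_tq {π : O} (hπ : IsUnif O π) (hE : E ≤ fracField O) {t : E}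
    {B0 B1 : Subalgebra ↥O ↥E}
    (M : TwoChartModel ↥O Kt ↥E π t B0 B1 (gaussVS hπ E hE)) (n e : ℕ) [NeZero n]
    (ht : ((t : E) : LaurentSeries Kt) = tq Kt n e)
    (fin1 : ∃ (r : ℕ) (b : Fin r → ↥E), (∀ i, b i ∈ B1) ∧
      ∀ x ∈ B1, ∃ P : Fin r → (↥O)[X], x = ∑ i, aeval t⁻¹ (P i) * b i) :
    @Fermat.Agent.Jac.TwoChart.FiniteProjOverLine ↥O ↥B0 ↥B1 ↥(B0 ⊔ B1) _ _ _ _ _ _ _
      (algebra0 B0 B1) (algebra1 B0 B1) (isScalarTower0 B0 B1) (isScalarTower1 B0 B1)
      (modelChart M) :=
  modelChart_finiteProjOverLine M (trans_gaussVS_tq hπ hE M n e ht) fin1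

end Gauss

end Fermat.Agent.T1.Coh60
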