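/-
Programme T1A (S19), brick G5a COH (helper60), part (les): REDUCTION MODULO A NONZERODIVISOR.

For an `A`-linear map `d : P → Q` (a two-term complex) and `a : A` regular on `Q`, the long exact
sequence of `0 → C --a--> C → C/a → 0`:

  `0 → (ker d)/a → ker (d mod a) --conn--> (coker d)[a] → 0`

and its two-chart (`QC2`) form `0 → H⁰(L)/a → H⁰(L/a) → H¹(L)[a] → 0`, where
`H⁰(L/a) = L.H0BC (A ⧸ (a))`.  Also: bounded `a`-power torsion of noetherian modules and the
resulting LIFTING LEMMA (`exists_lift_mod`, `exists_lift_H0`): a section of `L/a^(N+1)` lifts,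
modulo `a`, to a global section of `L`.
-/
import Mathlib
import Fermat.Agent.T1.Coh60.Coh

set_option autoImplicit false
set_option linter.unusedSectionVars false
set_option linter.style.haveILetI false

universe u

open TensorProduct

namespace Fermat.Agent.T1.Coh60

section Abstract

variable {A : Type*} [CommRing A] (P : Type*) {Q : Type*} [AddCommGroup P] [Module A P]
  [AddCommGroup Q] [Module A Q] (a : A)

/-- The reduction map `P → (A/a) ⊗ P`, `z ↦ 1 ⊗ z`. -/
noncomputable def redMod : P →ₗ[A] (A ⧸ Ideal.span {a}) ⊗[A] P :=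
  TensorProduct.mk A (A ⧸ Ideal.span {a}) P 1

variable {P}

@[simp] theorem redMod_apply (z : P) : redMod P a z = (1 : A ⧸ Ideal.span {a}) ⊗ₜ[A] z := rfl

/-- (T2) every element of `(A/I) ⊗ P` is of the form `1 ⊗ z`. -/
theorem exists_eq_one_tmul (I : Ideal A) (w : (A ⧸ I) ⊗[A] P) :
    ∃ z : P, w = (1 : A ⧸ I) ⊗ₜ[A] z := by
  induction w using TensorProduct.induction_on with
  | zero => exact ⟨0, (TensorProduct.tmul_zero _ _).symm⟩
  | tmul r x =>
    obtain ⟨r', rfl⟩ := Ideal.Quotient.mk_surjective r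
    refine ⟨r' • x, ?_⟩
    rw [TensorProduct.tmul_smul, TensorProduct.smul_tmul']
    congr 1
    rw [Algebra.smul_def, mul_one]
    rfl
  | add x y hx hy =>
    obtain ⟨z, rfl⟩ := hx
    obtain ⟨z', rfl⟩ := hy
    exact ⟨z + z', (TensorProduct.tmul_add _ _ _).symm⟩

theorem redMod_surjective : Function.Surjective (redMod P a) := fun w => by
  obtain ⟨z, rfl⟩ := exists_eq_one_tmul (Ideal.span {a}) w
  exact ⟨z, rfl⟩

/-- (T3) `1 ⊗ z = 0` in `(A/a) ⊗ P` iff `z ∈ a P`. -/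
theorem one_tmul_eq_zero_iff (z : P) :
    (1 : A ⧸ Ideal.span {a}) ⊗ₜ[A] z = 0 ↔ ∃ y : P, z = a • y := by
  rw [← (TensorProduct.quotTensorEquivQuotSMul P (Ideal.span {a})).map_eq_zero_iff,
    TensorProduct.quotTensorEquivQuotSMul_mk_one_tmul, Submodule.Quotient.mk_eq_zero,
    Submodule.ideal_span_singleton_smul, Submodule.mem_smul_pointwise_iff_exists]
  constructor
  · rintro ⟨y, -, rfl⟩
    exact ⟨y, rfl⟩
  · rintro ⟨y, rfl⟩
    exact ⟨y, Submodule.mem_top, rfl⟩

theorem redMod_eq_zero_iff (z : P) : redMod P a z = 0 ↔ ∃ y : P, z = a • y :=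
  one_tmul_eq_zero_iff a z

theorem exact_lsmul_redMod : Function.Exact (LinearMap.lsmul A P a) (redMod P a) := by
  intro z
  rw [redMod_eq_zero_iff]
  constructor
  · rintro ⟨y, rfl⟩
    exact ⟨y, rfl⟩
  · rintro ⟨y, rfl⟩
    exact ⟨y, rfl⟩

variable (d : P →ₗ[A] Q)

/-- `d mod a`, as an `A`-linear map. -/
noncomputable def dMod : (A ⧸ Ideal.span {a}) ⊗[A] P →ₗ[A] (A ⧸ Ideal.span {a}) ⊗[A] Q :=
  (d.baseChange (A ⧸ Ideal.span {a})).restrictScalars A

@[simp] theorem dMod_one_tmul (z : P) :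
    dMod a d ((1 : A ⧸ Ideal.span {a}) ⊗ₜ[A] z) = (1 : A ⧸ Ideal.span {a}) ⊗ₜ[A] d z := by
  simp [dMod]

/-- (T1) `1 ⊗ z ∈ ker (d mod a)` iff `d z ∈ a Q`. -/
theorem one_tmul_mem_ker_baseChange_iff (z : P) :
    (1 : A ⧸ Ideal.span {a}) ⊗ₜ[A] z ∈ LinearMap.ker (d.baseChange (A ⧸ Ideal.span {a})) ↔
      ∃ q : Q, d z = a • q := by
  rw [LinearMap.mem_ker, LinearMap.baseChange_tmul, one_tmul_eq_zero_iff]

/-- The reduction map `ker d → ker (d mod a)`. -/
noncomputable def redKer :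
    LinearMap.ker d →ₗ[A] LinearMap.ker (d.baseChange (A ⧸ Ideal.span {a})) :=
  LinearMap.codRestrict ((LinearMap.ker (d.baseChange (A ⧸ Ideal.span {a}))).restrictScalars A)
    ((redMod P a).comp (LinearMap.ker d).subtype) (fun x => by
      show (1 : A ⧸ Ideal.span {a}) ⊗ₜ[A] (x : P) ∈
        LinearMap.ker (d.baseChange (A ⧸ Ideal.span {a}))
      rw [one_tmul_mem_ker_baseChange_iff]
      exact ⟨0, by rw [smul_zero]; exact x.2⟩)

@[simp] theorem redKer_coe (x : LinearMap.ker d) :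
    ((redKer a d x : LinearMap.ker (d.baseChange (A ⧸ Ideal.span {a}))) :
      (A ⧸ Ideal.span {a}) ⊗[A] P) = (1 : A ⧸ Ideal.span {a}) ⊗ₜ[A] (x : P) := rfl

variable {a}

/-- Injectivity of `(ker d)/a → ker (d mod a)`. -/
theorem redKer_eq_zero_iff (ha : IsSMulRegular Q a) (x : LinearMap.ker d) :
    redKer a d x = 0 ↔ ∃ y : LinearMap.ker d, x = a • y := by
  rw [← Subtype.coe_inj, redKer_coe, ZeroMemClass.coe_zero, one_tmul_eq_zero_iff]
  constructor
  · rintro ⟨y, hy⟩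
    have hdy : d y = 0 := by
      apply ha
      show a • d y = a • 0
      rw [smul_zero, ← map_smul, ← hy]
      exact x.2
    exact ⟨⟨y, hdy⟩, Subtype.ext hy⟩
  · rintro ⟨y, rfl⟩
    exact ⟨y, rfl⟩

end Abstract

section Conn

variable {A : Type*} [CommRing A] {P Q : Type*} [AddCommGroup P] [Module A P]
  [AddCommGroup Q] [Module A Q] {a : A} (d : P →ₗ[A] Q) (ha : IsSMulRegular Q a)

theorem lsmul_comp_eq (a : A) : (LinearMap.lsmul A Q a).comp d = d.comp (LinearMap.lsmul A P a) := by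
  ext z
  simp

theorem redMod_comp_eq (a : A) : (redMod Q a).comp d = (dMod a d).comp (redMod P a) := by
  ext z
  simp

/-- The inclusion `ker (d mod a) → (A/a) ⊗ P`, as an `A`-linear map. -/
noncomputable def kerModSubtype (a : A) :
    LinearMap.ker (d.baseChange (A ⧸ Ideal.span {a})) →ₗ[A] (A ⧸ Ideal.span {a}) ⊗[A] P :=
  (LinearMap.ker (d.baseChange (A ⧸ Ideal.span {a}))).subtype.restrictScalars A

theorem exact_subtype_dMod (a : A) :
    Function.Exact (kerModSubtype d a) (dMod a d) := by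
  intro w
  constructor
  · intro h
    exact ⟨⟨w, h⟩, rfl⟩
  · rintro ⟨y, rfl⟩
    exact y.2

/-- The connecting map `ker (d mod a) → coker d` of the sequence `0 → C --a--> C → C/a → 0`. -/
noncomputable def conn :
    LinearMap.ker (d.baseChange (A ⧸ Ideal.span {a})) →ₗ[A] Q ⧸ LinearMap.range d :=
  SnakeLemma.δ' (K₃ := LinearMap.ker (d.baseChange (A ⧸ Ideal.span {a})))
    d d (dMod a d) (LinearMap.lsmul A P a) (redMod P a) (exact_lsmul_redMod a)
    (LinearMap.lsmul A Q a) (redMod Q a) (exact_lsmul_redMod a) (lsmul_comp_eq d a)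
    (redMod_comp_eq d a)
    (kerModSubtype d a) (exact_subtype_dMod d a) (LinearMap.range d).mkQ (LinearMap.exact_map_mkQ_range d)
    (redMod_surjective a) ha

/-- Computation of `conn`: if `w = 1 ⊗ z` and `d z = a • q` then `conn w = [q]`. -/
theorem conn_eq (w : LinearMap.ker (d.baseChange (A ⧸ Ideal.span {a}))) (z : P) (q : Q)
    (hw : (w : (A ⧸ Ideal.span {a}) ⊗[A] P) = (1 : A ⧸ Ideal.span {a}) ⊗ₜ[A] z)
    (hq : d z = a • q) : conn d ha w = Submodule.Quotient.mk q :=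
  by
  show conn d ha w = (LinearMap.range d).mkQ q
  unfold conn
  exact SnakeLemma.δ'_eq _ _ _ _ _ _ _ _ _ _ _ _ _ _ _ _ _ w z
    (show redMod P a z = kerModSubtype d a w from hw.symm) q
    (show LinearMap.lsmul A Q a q = d z from hq.symm)

/-- `conn` lands in the `a`-torsion of `coker d`. -/
theorem smul_conn (w : LinearMap.ker (d.baseChange (A ⧸ Ideal.span {a}))) :
    a • conn d ha w = 0 := by
  obtain ⟨z, hz⟩ := exists_eq_one_tmul (Ideal.span {a}) (w : (A ⧸ Ideal.span {a}) ⊗[A] P)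
  obtain ⟨q, hq⟩ := (one_tmul_mem_ker_baseChange_iff a d z).1 (hz ▸ w.2)
  rw [conn_eq d ha w z q hz hq, ← Submodule.Quotient.mk_smul, Submodule.Quotient.mk_eq_zero, ← hq]
  exact LinearMap.mem_range_self d z

/-- Exactness at `ker (d mod a)`. -/
theorem conn_eq_zero_iff (w : LinearMap.ker (d.baseChange (A ⧸ Ideal.span {a}))) :
    conn d ha w = 0 ↔ ∃ x : LinearMap.ker d, redKer a d x = w := by
  have h := SnakeLemma.exact_δ'_right (K₂ := LinearMap.ker d)
    (K₃ := LinearMap.ker (d.baseChange (A ⧸ Ideal.span {a}))) d d (dMod a d) (LinearMap.lsmul A P a) (redMod P a)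
    (exact_lsmul_redMod a)
    (LinearMap.lsmul A Q a) (redMod Q a) (exact_lsmul_redMod a) (lsmul_comp_eq d a)
    (redMod_comp_eq d a) (LinearMap.ker d).subtype (LinearMap.exact_subtype_ker_map d)
    (kerModSubtype d a) (exact_subtype_dMod d a) (LinearMap.range d).mkQ (LinearMap.exact_map_mkQ_range d)
    (redMod_surjective a) ha (redKer a d) (by ext x; rfl) Subtype.val_injective
  exact h w

/-- Surjectivity of `conn` onto the `a`-torsion of `coker d`. -/
theorem conn_surjective (h : Q ⧸ LinearMap.range d) (hh : a • h = 0) :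
    ∃ w, conn d ha w = h := by
  obtain ⟨q, rfl⟩ := Submodule.Quotient.mk_surjective _ h
  rw [← Submodule.Quotient.mk_smul, Submodule.Quotient.mk_eq_zero] at hh
  obtain ⟨z, hz⟩ := hh
  have hw : (1 : A ⧸ Ideal.span {a}) ⊗ₜ[A] z ∈
      LinearMap.ker (d.baseChange (A ⧸ Ideal.span {a})) :=
    (one_tmul_mem_ker_baseChange_iff a d z).2 ⟨q, hz⟩
  exact ⟨⟨_, hw⟩, conn_eq d ha ⟨_, hw⟩ z q rfl hz⟩

end Conn

section Bound

variable {A : Type*} [CommRing A]

/-- (B) In a noetherian module the `a`-power torsion is bounded. -/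
theorem exists_pow_torsion_bound {H : Type*} [AddCommGroup H] [Module A H] [IsNoetherian A H]
    (a : A) : ∃ N : ℕ, ∀ (k : ℕ) (h : H), a ^ k • h = 0 → a ^ N • h = 0 := by
  let f : ℕ →o Submodule A H :=
    ⟨fun k => LinearMap.ker (LinearMap.lsmul A H (a ^ k)), fun k l hkl h hh => by
      rw [LinearMap.mem_ker, LinearMap.lsmul_apply] at hh ⊢
      obtain ⟨m, rfl⟩ := Nat.exists_eq_add_of_le hkl
      rw [pow_add, mul_comm, mul_smul, hh, smul_zero]⟩
  obtain ⟨N, hN⟩ := monotone_stabilizes_iff_noetherian.2 inferInstance f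
  refine ⟨N, fun k h hk => ?_⟩
  have hmem : h ∈ f k := by
    show h ∈ LinearMap.ker (LinearMap.lsmul A H (a ^ k))
    rw [LinearMap.mem_ker, LinearMap.lsmul_apply]
    exact hk
  have hmemN : h ∈ f N := by
    rcases le_total N k with hle | hle
    · rw [hN k hle]
      exact hmem
    · exact f.monotone hle hmem
  have h2 : h ∈ LinearMap.ker (LinearMap.lsmul A H (a ^ N)) := hmemN
  rw [LinearMap.mem_ker, LinearMap.lsmul_apply] at h2
  exact h2

variable {P Q : Type*} [AddCommGroup P] [Module A P] [AddCommGroup Q] [Module A Q]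

/-- (LIFT) If `a ^ N` kills the `a`-power torsion of `coker d`, every `z` with
`d z ∈ a ^ (N + 1) Q` is congruent modulo `a` to an element of `ker d`. -/
theorem exists_lift_mod (d : P →ₗ[A] Q) (a : A) (N : ℕ)
    (hN : ∀ (k : ℕ) (h : Q ⧸ LinearMap.range d), a ^ k • h = 0 → a ^ N • h = 0)
    (z : P) (q : Q) (hz : d z = a ^ (N + 1) • q) :
    ∃ σ : LinearMap.ker d, ∃ y : P, z = σ + a • y := by
  have h1 : a ^ (N + 1) • (Submodule.Quotient.mk q : Q ⧸ LinearMap.range d) = 0 := by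
    rw [← Submodule.Quotient.mk_smul, Submodule.Quotient.mk_eq_zero, ← hz]
    exact LinearMap.mem_range_self d z
  have h2 := hN (N + 1) _ h1
  rw [← Submodule.Quotient.mk_smul, Submodule.Quotient.mk_eq_zero] at h2
  obtain ⟨y, hy⟩ := h2
  refine ⟨⟨z - a • y, ?_⟩, y, by simp⟩
  rw [LinearMap.mem_ker, map_sub, map_smul, hy, hz, pow_succ', mul_smul, sub_self]

end Bound

section TwoChart

open Fermat.Agent.Jac Polynomial

variable {A R0 R1 R01 : Type u} [CommRing A] [CommRing R0] [CommRing R1] [CommRing R01]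
  [Algebra A R0] [Algebra A R1] [Algebra A R01] [Algebra R0 R01] [Algebra R1 R01]
  [IsScalarTower A R0 R01] [IsScalarTower A R1 R01]
  (c : TwoChart A R0 R1 R01) (L : QC2 A R0 R1 R01) (a : A)

/-- `H⁰(L/a)` is the kernel of `d mod a`. -/
theorem H0BC_eq_ker :
    L.H0BC (A ⧸ Ideal.span {a}) = LinearMap.ker (L.d.baseChange (A ⧸ Ideal.span {a})) := rfl

/-- (T1) `1 ⊗ z` is a section of `L/a` iff `d z ∈ a N01`. -/
theorem one_tmul_mem_H0BC_iff (z : L.N0 × L.N1) :
    (1 : A ⧸ Ideal.span {a}) ⊗ₜ[A] z ∈ L.H0BC (A ⧸ Ideal.span {a}) ↔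
      ∃ q : L.N01, L.d z = a • q :=
  one_tmul_mem_ker_baseChange_iff a L.d z

/-- (L1) the reduction map `H⁰(L) → H⁰(L/a)`. -/
noncomputable def redH0 : L.H0 →ₗ[A] L.H0BC (A ⧸ Ideal.span {a}) := redKer a L.d

@[simp] theorem redH0_coe (x : L.H0) :
    ((redH0 L a x : L.H0BC (A ⧸ Ideal.span {a})) :
      (A ⧸ Ideal.span {a}) ⊗[A] (L.N0 × L.N1)) =
      (1 : A ⧸ Ideal.span {a}) ⊗ₜ[A] (x : L.N0 × L.N1) := rfl

variable {a}

/-- `0 → H⁰(L)/a → H⁰(L/a)`. -/
theorem redH0_eq_zero_iff (ha : IsSMulRegular L.N01 a) (x : L.H0) :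
    redH0 L a x = 0 ↔ ∃ y : L.H0, x = a • y :=
  redKer_eq_zero_iff L.d ha x

/-- (L2) the connecting map `H⁰(L/a) → H¹(L)`. -/
noncomputable def connH (ha : IsSMulRegular L.N01 a) :
    L.H0BC (A ⧸ Ideal.span {a}) →ₗ[A] L.H1 := conn L.d ha

theorem connH_eq (ha : IsSMulRegular L.N01 a) (w : L.H0BC (A ⧸ Ideal.span {a}))
    (z : L.N0 × L.N1) (q : L.N01)
    (hw : (w : (A ⧸ Ideal.span {a}) ⊗[A] (L.N0 × L.N1)) = (1 : A ⧸ Ideal.span {a}) ⊗ₜ[A] z)
    (hq : L.d z = a • q) : connH L ha w = Submodule.Quotient.mk q :=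
  conn_eq L.d ha w z q hw hq

theorem smul_connH (ha : IsSMulRegular L.N01 a) (w : L.H0BC (A ⧸ Ideal.span {a})) :
    a • connH L ha w = 0 := smul_conn L.d ha w

/-- `H⁰(L) → H⁰(L/a) → H¹(L)` is exact. -/
theorem connH_eq_zero_iff (ha : IsSMulRegular L.N01 a) (w : L.H0BC (A ⧸ Ideal.span {a})) :
    connH L ha w = 0 ↔ ∃ x : L.H0, redH0 L a x = w := conn_eq_zero_iff L.d ha w

/-- `H⁰(L/a) → H¹(L)[a] → 0`. -/
theorem connH_surjective (ha : IsSMulRegular L.N01 a) (h : L.H1) (hh : a • h = 0) :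
    ∃ w, connH L ha w = h := conn_surjective L.d ha h hh

variable (a)

/-- Regularity on the charts: a nonzerodivisor of `A` is regular on `N0` when `N0` is projective
over the line. -/
theorem isSMulRegular_N0 (hP : L.ProjOverLine c) (ha : a ∈ nonZeroDivisors A) :
    IsSMulRegular L.N0 a := by
  have := hP.proj0
  haveI : Module.Flat A (Module.AEval A L.N0 c.t) :=
    Module.Flat.trans A A[X] (Module.AEval A L.N0 c.t)
  have h : IsSMulRegular (Module.AEval A L.N0 c.t) a :=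
    Module.Flat.isSMulRegular_of_nonZeroDivisors ha
  exact ((Module.AEval.of A L.N0 c.t).isSMulRegular_congr a).2 h

theorem isSMulRegular_N1 (hP : L.ProjOverLine c) (ha : a ∈ nonZeroDivisors A) :
    IsSMulRegular L.N1 a := by
  have := hP.proj1
  haveI : Module.Flat A (Module.AEval A L.N1 c.s) :=
    Module.Flat.trans A A[X] (Module.AEval A L.N1 c.s)
  have h : IsSMulRegular (Module.AEval A L.N1 c.s) a :=
    Module.Flat.isSMulRegular_of_nonZeroDivisors ha
  exact ((Module.AEval.of A L.N1 c.s).isSMulRegular_congr a).2 h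

theorem isSMulRegular_N01 (hP : L.ProjOverLine c) (ha : a ∈ nonZeroDivisors A) :
    IsSMulRegular L.N01 a := by
  have h0 : IsSMulRegular L.N0 (algebraMap A R0 a) := by
    have := isSMulRegular_N0 c L a hP ha
    intro x y hxy
    apply this
    simpa [algebraMap_smul] using hxy
  haveI := c.away0
  haveI : Module.Flat R0 R01 := IsLocalization.flat R01 (Submonoid.powers c.t)
  have h1 := IsSMulRegular.of_flat_of_isBaseChange L.bc0 h0
  intro x y hxy
  apply h1
  simpa [algebraMap_smul] using hxy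

/-- (LIFT, two-chart form) For `L` finite over the line over a noetherian base there is `N` such
that every section of `L/a^(N+1)` is congruent modulo `a` to a global section of `L`. -/
theorem exists_lift_H0 [IsNoetherianRing A] (hF : L.FiniteOverLine c) :
    ∃ N : ℕ, ∀ z : L.N0 × L.N1, (∃ q : L.N01, L.d z = a ^ (N + 1) • q) →
      ∃ σ : L.H0, ∃ y : L.N0 × L.N1, z = σ + a • y := by
  haveI : Module.Finite A L.H1 := finite_H1 c L hF
  haveI : IsNoetherian A L.H1 := isNoetherian_of_isNoetherianRing_of_finite A L.H1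
  obtain ⟨N, hN⟩ := exists_pow_torsion_bound (H := L.H1) a
  refine ⟨N, ?_⟩
  rintro z ⟨q, hq⟩
  exact exists_lift_mod L.d a N hN z q hq

/-- (LIFT, tensor form) every `w ∈ H⁰(L/a^(N+1))` is `1 ⊗ (σ + a • y)` with `σ ∈ H⁰(L)`. -/
theorem exists_lift_H0BC [IsNoetherianRing A] (hF : L.FiniteOverLine c) :
    ∃ N : ℕ, ∀ w : L.H0BC (A ⧸ Ideal.span {a ^ (N + 1)}),
      ∃ σ : L.H0, ∃ y : L.N0 × L.N1,
        (w : (A ⧸ Ideal.span {a ^ (N + 1)}) ⊗[A] (L.N0 × L.N1)) =
          (1 : A ⧸ Ideal.span {a ^ (N + 1)}) ⊗ₜ[A] ((σ : L.N0 × L.N1) + a • y) := by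
  obtain ⟨N, hN⟩ := exists_lift_H0 c L a hF
  refine ⟨N, fun w => ?_⟩
  obtain ⟨z, hz⟩ := exists_eq_one_tmul (Ideal.span {a ^ (N + 1)})
    (w : (A ⧸ Ideal.span {a ^ (N + 1)}) ⊗[A] (L.N0 × L.N1))
  have hmem : (1 : A ⧸ Ideal.span {a ^ (N + 1)}) ⊗ₜ[A] z ∈
      L.H0BC (A ⧸ Ideal.span {a ^ (N + 1)}) := hz ▸ w.2
  obtain ⟨σ, y, hσ⟩ := hN z ((one_tmul_mem_H0BC_iff L (a ^ (N + 1)) z).1 hmem)
  exact ⟨σ, y, by rw [hz, hσ]⟩

end TwoChart

end Fermat.Agent.T1.Coh60
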